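/-
S14 helper (helper52): basic facts on `ExtCitation.cycloExp` (mod `p` cyclotomic character of
`Gal(ℚ̄/ℚ)`), and package A1 (split criterion).
-/
import Mathlib
import Fermat.Prelude.Def_ExtCitation_AdmissibleExtension_v2

set_option autoImplicit false

namespace Fermat.Agent.S14.H52

open ExtCitation

/-- `ℚ̄`. -/
abbrev Qb : Type := AlgebraicClosure ℚ

/-- `Gal(ℚ̄/ℚ)`. -/
abbrev GQ : Type := Qb ≃ₐ[ℚ] Qb

/-- `ℚ̄/ℚ` is Galois (for the `ℚ`-algebra structure the frozen statements elaborate with). -/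
theorem isGalois_Qb : IsGalois ℚ Qb := by
  have h : (DivisionRing.toRatAlgebra : Algebra ℚ (AlgebraicClosure ℚ)) =
      AlgebraicClosure.instAlgebra ℚ := Subsingleton.elim _ _
  show @IsGalois ℚ _ (AlgebraicClosure ℚ) _ DivisionRing.toRatAlgebra
  rw [h]
  exact @IsAlgClosure.isGalois ℚ (AlgebraicClosure ℚ) _ _ (AlgebraicClosure.instAlgebra ℚ)
    inferInstance _

variable {p : ℕ} [Fact p.Prime]

/-- The mod `p` cyclotomic character with values in `ZMod p`. -/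
noncomputable def chi (p : ℕ) [Fact p.Prime] (σ : GQ) : ZMod p := (cycloExp p σ : ZMod p)

theorem cycloExp_lt (σ : GQ) : cycloExp p σ < p := by
  unfold cycloExp
  exact ZMod.val_lt _

/-- `σ ζ = ζ ^ cycloExp σ` for every `p`-th root of unity. -/
theorem cycloExp_spec (σ : GQ) {ζ : Qb} (hζ : ζ ^ p = 1) : σ ζ = ζ ^ cycloExp p σ := by
  have : NeZero p := ⟨(Fact.out : p.Prime).ne_zero⟩
  have hζ0 : ζ ≠ 0 := by
    rintro rfl
    rw [zero_pow (NeZero.ne p)] at hζ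
    exact zero_ne_one hζ
  have ht : Units.mk0 ζ hζ0 ∈ rootsOfUnity p Qb := by
    rw [mem_rootsOfUnity]
    ext
    simpa using hζ
  have := modularCyclotomicCharacter.spec Qb (card_rootsOfUnity_eq_self p)
    (σ : Qb ≃+* Qb) ht
  simpa [cycloExp] using this

theorem chi_eq (σ : GQ) : chi p σ = ((modularCyclotomicCharacter Qb (card_rootsOfUnity_eq_self p)
    (σ : Qb ≃+* Qb) : (ZMod p)ˣ) : ZMod p) := by
  have : NeZero p := ⟨(Fact.out : p.Prime).ne_zero⟩
  unfold chi cycloExp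
  rw [ZMod.natCast_val, ZMod.cast_id', id]

theorem chi_mul (σ τ : GQ) : chi p (σ * τ) = chi p σ * chi p τ := by
  rw [chi_eq, chi_eq, chi_eq]
  have : ((σ * τ : GQ) : Qb ≃+* Qb) = (σ : Qb ≃+* Qb) * (τ : Qb ≃+* Qb) := rfl
  rw [this, map_mul, Units.val_mul]

theorem chi_one : chi p (1 : GQ) = 1 := by
  rw [chi_eq]
  have : ((1 : GQ) : Qb ≃+* Qb) = 1 := rfl
  rw [this, map_one, Units.val_one]

theorem chi_ne_zero (σ : GQ) : chi p σ ≠ 0 := by
  rw [chi_eq]
  exact Units.ne_zero _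

theorem chi_inv (σ : GQ) : chi p σ⁻¹ = (chi p σ)⁻¹ := by
  have h := chi_mul (p := p) σ⁻¹ σ
  rw [inv_mul_cancel, chi_one] at h
  exact eq_inv_of_mul_eq_one_left h.symm

theorem chi_eq_one_iff (σ : GQ) : chi p σ = 1 ↔ cycloExp p σ = 1 := by
  have hp1 : 1 < p := (Fact.out : p.Prime).one_lt
  constructor
  · intro h
    have h1 := congrArg ZMod.val h
    unfold chi at h1
    rw [ZMod.val_natCast, Nat.mod_eq_of_lt (cycloExp_lt σ)] at h1
    have : Fact (1 < p) := ⟨hp1⟩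
    rw [h1, ZMod.val_one]
  · intro h
    unfold chi
    rw [h, Nat.cast_one]

/-- `cycloExp σ = 1` iff `σ` fixes a (any) primitive `p`-th root of unity. -/
theorem cycloExp_eq_one_iff (σ : GQ) {ζ : Qb} (hζ : IsPrimitiveRoot ζ p) :
    cycloExp p σ = 1 ↔ σ ζ = ζ := by
  have hp1 : 1 < p := (Fact.out : p.Prime).one_lt
  rw [cycloExp_spec σ hζ.pow_eq_one]
  constructor
  · intro h
    rw [h, pow_one]
  · intro h
    have h2 : ζ ^ cycloExp p σ = ζ ^ 1 := by rw [h, pow_one]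
    exact hζ.pow_inj (cycloExp_lt σ) hp1 h2

theorem chi_eq_one_iff_fix (σ : GQ) {ζ : Qb} (hζ : IsPrimitiveRoot ζ p) :
    chi p σ = 1 ↔ σ ζ = ζ :=
  (chi_eq_one_iff σ).trans (cycloExp_eq_one_iff σ hζ)

/-- `σ ζ = ζ ^ k` whenever `k ≡ χ(σ)`. -/
theorem apply_root_eq_pow (σ : GQ) {ζ : Qb} (hζ : ζ ^ p = 1) {k : ℕ} (hk : (k : ZMod p) = chi p σ) :
    σ ζ = ζ ^ k := by
  rw [cycloExp_spec σ hζ]
  have hmod : cycloExp p σ ≡ k [MOD p] := by
    rw [← ZMod.natCast_eq_natCast_iff]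
    exact hk.symm
  rw [← Nat.mod_add_div (cycloExp p σ) p, ← Nat.mod_add_div k p, pow_add, pow_add, pow_mul,
    pow_mul, hζ, one_pow, one_pow, mul_one, mul_one, hmod]

theorem exists_primitiveRoot (p : ℕ) [Fact p.Prime] : ∃ ζ : Qb, IsPrimitiveRoot ζ p := by
  have : NeZero p := ⟨(Fact.out : p.Prime).ne_zero⟩
  have : NeZero (p : Qb) := ⟨Nat.cast_ne_zero.mpr (NeZero.ne p)⟩
  exact HasEnoughRootsOfUnity.exists_primitiveRoot Qb p

/-- For `p ≥ 3` some automorphism has nontrivial cyclotomic character. -/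
theorem exists_chi_ne_one (h3 : 3 ≤ p) : ∃ σ : GQ, chi p σ ≠ 1 := by
  obtain ⟨ζ, hζ⟩ := exists_primitiveRoot p
  by_contra hcon
  push Not at hcon
  have hfix : ∀ σ : GQ, σ ζ = ζ := fun σ => (chi_eq_one_iff_fix σ hζ).mp (hcon σ)
  haveI := isGalois_Qb
  obtain ⟨r, hr⟩ := (InfiniteGalois.mem_range_algebraMap_iff_fixed (k := ℚ) (K := Qb) ζ).mpr hfix
  have hrp : r ^ p = 1 := by
    have h1 : algebraMap ℚ Qb (r ^ p) = algebraMap ℚ Qb 1 := by
      rw [map_pow, hr, hζ.pow_eq_one, map_one]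
    exact (algebraMap ℚ Qb).injective h1
  have hodd : Odd p := (Fact.out : p.Prime).odd_of_ne_two (by omega)
  have hr1 : r = 1 := by
    have := hodd.strictMono_pow (R := ℚ)
    exact this.injective (by simpa using hrp)
  rw [hr1, map_one] at hr
  exact hζ.ne_one (Fact.out : p.Prime).one_lt hr.symm

end Fermat.Agent.S14.H52
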