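/-
S14 package A1 (helper52): split criterion. If every `σ` with trivial mod `p` cyclotomic character
acts trivially on `V`, then the extension splits globally (eigenspace of a `σ₀` with `χ(σ₀) ≠ 1`).
-/
import Fermat.Agent.S14.H52.Cyclo

set_option autoImplicit false

namespace Fermat.Agent.S14.H52

open ExtCitation

variable {p : ℕ} [Fact p.Prime]

variable {V : Type} [AddCommGroup V] [Module (ZMod p) V] [DistribMulAction GQ V]
  [SMulCommClass GQ (ZMod p) V]

omit [SMulCommClass GQ (ZMod p) V] in
/-- `σ x - χ(σ) x ∈ C` in terms of `chi`. -/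
theorem smul_sub_chi_smul_mem {C : Submodule (ZMod p) V} (hadm : IsAdmissibleExtension p V C)
    (σ : GQ) (x : V) : σ • x - chi p σ • x ∈ C :=
  hadm.cyclo_quot σ x

/-- **A1** for `p ≥ 3`: the eigenspace of a `σ₀` with `χ(σ₀) ≠ 1` is a stable complement. -/
theorem splitsGlobally_of_trivial_of_three_le (C : Submodule (ZMod p) V)
    (hadm : IsAdmissibleExtension p V C)
    (h3 : 3 ≤ p) (htriv : ∀ σ : GQ, cycloExp p σ = 1 → ∀ x : V, σ • x = x) :
    SplitsGlobally C := by
  obtain ⟨σ₀, hσ₀⟩ := exists_chi_ne_one (p := p) h3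
  set c : ZMod p := chi p σ₀ with hc
  have hc1 : (1 : ZMod p) - c ≠ 0 := fun h => hσ₀ (sub_eq_zero.mp h).symm
  let f : V →ₗ[ZMod p] V := DistribSMul.toLinearMap (ZMod p) V σ₀ - c • LinearMap.id
  have hf : ∀ x, f x = σ₀ • x - c • x := fun x => rfl
  refine ⟨LinearMap.ker f, ?_, ?_⟩
  · -- Galois stability
    intro τ x hx
    rw [LinearMap.mem_ker, hf] at hx ⊢
    have hκ : cycloExp p (σ₀⁻¹ * τ⁻¹ * σ₀ * τ) = 1 := by
      rw [← chi_eq_one_iff, chi_mul, chi_mul, chi_mul, chi_inv, chi_inv]
      have h1 := chi_ne_zero (p := p) σ₀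
      have h2 := chi_ne_zero (p := p) τ
      field_simp
    have hcomm : σ₀ • τ • x = τ • σ₀ • x := by
      have h1 := htriv _ hκ x
      have h2 : σ₀ * τ = τ * σ₀ * (σ₀⁻¹ * τ⁻¹ * σ₀ * τ) := by group
      rw [← mul_smul, h2, mul_smul, h1, mul_smul]
    rw [hcomm, ← smul_comm τ c x, ← smul_sub, hx, smul_zero]
  · constructor
    · -- disjoint
      rw [Submodule.disjoint_def]
      intro x hxC hx
      rw [LinearMap.mem_ker, hf, hadm.fixed_sub σ₀ x hxC] at hx
      have h1 : ((1 : ZMod p) - c) • x = 0 := by rw [sub_smul, one_smul]; exact hx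
      exact (smul_eq_zero.mp h1).resolve_left hc1
    · -- codisjoint
      rw [codisjoint_iff, eq_top_iff]
      intro x _
      have hu0 : σ₀ • x - c • x ∈ C := smul_sub_chi_smul_mem hadm σ₀ x
      obtain ⟨u, hu_def⟩ : ∃ u : V, u = σ₀ • x - c • x := ⟨_, rfl⟩
      have hu : u ∈ C := hu_def ▸ hu0
      have hσu : σ₀ • u = u := hadm.fixed_sub σ₀ u hu
      obtain ⟨a, ha⟩ : ∃ a : ZMod p, a = ((1 : ZMod p) - c)⁻¹ := ⟨_, rfl⟩
      have hac : a * (1 - c) = 1 := by rw [ha, inv_mul_cancel₀ hc1]
      have hy : x - a • u ∈ LinearMap.ker f := by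
        rw [LinearMap.mem_ker, hf]
        have e1 : σ₀ • (x - a • u) = σ₀ • x - a • u := by
          rw [smul_sub, smul_comm σ₀ a u, hσu]
        rw [e1]
        have e2 : σ₀ • x - a • u - c • (x - a • u) = (1 - a * (1 - c)) • u := by
          rw [hu_def]
          generalize σ₀ • x = w
          module
        rw [e2, hac, sub_self, zero_smul]
      have hx : x = a • u + (x - a • u) := by abel
      rw [hx]
      exact Submodule.add_mem_sup (C.smul_mem _ hu) hy

/-- **A1.** If the kernel of the cyclotomic character acts trivially on `V`, the extension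
splits (skeleton statement, verbatim; for `p = 2` the whole group acts trivially). -/
theorem splitsGlobally_of_trivial (C : Submodule (ZMod p) V) (h : IsAdmissibleExtension p V C)
    (htriv : ∀ σ : GQ, cycloExp p σ = 1 → ∀ v : V, σ • v = v) : SplitsGlobally C := by
  by_cases h3 : 3 ≤ p
  · exact splitsGlobally_of_trivial_of_three_le C h h3 htriv
  · have hp2 : p = 2 := by
      have := (Fact.out : p.Prime).two_le
      omega
    have hall : ∀ σ : GQ, ∀ v : V, σ • v = v := by
      intro σ
      apply htriv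
      have h1 := cycloExp_lt (p := p) σ
      have h2 : cycloExp p σ ≠ 0 := by
        intro h0
        apply chi_ne_zero (p := p) σ
        unfold chi
        rw [h0, Nat.cast_zero]
      omega
    obtain ⟨D, hD⟩ := Submodule.exists_isCompl C
    exact ⟨D, fun σ x hx => by rw [hall σ x]; exact hx, hD⟩

end Fermat.Agent.S14.H52
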