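/-
S14 package A2 (helper52): the Kummer generator attached to a non-split admissible extension.

`exists_resolvent`: for a cocycle `β : G → 𝔽_p` (twisted by the cyclotomic character) which is
trivial on an open set around `1` and with `β σ₁ = 1`, `χ σ₁ = 1`, a Lagrange resolvent
`θ = Σ_{k<p} ζ^{-k} σ₁^k α` (with `α` in the fixed field of `{χ = 1, β = 0}`) is nonzero for a
suitable `α` (Dedekind independence) and satisfies `τ θ = ζ^{β τ} θ` for all `τ` with `χ τ = 1`.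
`kummer_of_resolvent`: all Kummer-theoretic consequences.
`exists_kummer_generator`: the skeleton statement.
-/
import Fermat.Agent.S14.H52.Split

set_option autoImplicit false

namespace Fermat.Agent.S14.H52

open ExtCitation IntermediateField

variable {p : ℕ} [Fact p.Prime]

/-- Core resolvent lemma. -/
theorem exists_resolvent {ζ : Qb} (hζ : IsPrimitiveRoot ζ p) (β : GQ → ZMod p) (σ₁ : GQ)
    (hσ₁ : chi p σ₁ = 1) (hβ₁ : β σ₁ = 1)
    (hcoc : ∀ σ τ : GQ, β (σ * τ) = chi p τ * β σ + β τ)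
    (hopen : {σ : GQ | chi p σ = 1 ∧ β σ = 0} ∈ nhds (1 : GQ)) :
    ∃ θ : Qb, θ ≠ 0 ∧ ∀ τ : GQ, chi p τ = 1 → τ θ = ζ ^ (β τ).val * θ := by
  have := isGalois_Qb
  have hp0 : p ≠ 0 := (Fact.out : p.Prime).ne_zero
  have hβone : β 1 = 0 := by
    have := hcoc 1 1
    rw [mul_one, chi_one, one_mul] at this
    exact left_eq_add.mp this
  have hβinv : ∀ σ : GQ, chi p σ = 1 → β σ⁻¹ = - β σ := by
    intro σ hσ
    have := hcoc σ⁻¹ σ
    rw [inv_mul_cancel, hβone, hσ, one_mul] at this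
    exact eq_neg_of_add_eq_zero_left this.symm
  let N : Subgroup GQ :=
    { carrier := {σ : GQ | chi p σ = 1 ∧ β σ = 0}
      mul_mem' := by
        rintro a b ⟨ha1, ha2⟩ ⟨hb1, hb2⟩
        exact ⟨by rw [chi_mul, ha1, hb1, one_mul], by rw [hcoc, ha2, hb2, mul_zero, add_zero]⟩
      one_mem' := ⟨chi_one, hβone⟩
      inv_mem' := by
        rintro a ⟨ha1, ha2⟩
        exact ⟨by rw [chi_inv, ha1, inv_one], by rw [hβinv a ha1, ha2, neg_zero]⟩ }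
  have hNmem : ∀ σ : GQ, σ ∈ N ↔ chi p σ = 1 ∧ β σ = 0 := fun σ => Iff.rfl
  have hNopen : IsOpen (N : Set GQ) := Subgroup.isOpen_of_mem_nhds N hopen
  have hNclosed : IsClosed (N : Set GQ) := Subgroup.isClosed_of_isOpen N hNopen
  have hfix : (IntermediateField.fixedField N).fixingSubgroup = N :=
    InfiniteGalois.fixingSubgroup_fixedField (⟨N, hNclosed⟩ : ClosedSubgroup GQ)
  -- normality
  have hNconj : ∀ (τ ν : GQ), ν ∈ N → τ⁻¹ * ν * τ ∈ N := by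
    intro τ ν hν
    obtain ⟨h1, h2⟩ := (hNmem ν).mp hν
    refine (hNmem _).mpr ⟨?_, ?_⟩
    · rw [chi_mul, chi_mul, chi_inv, h1, mul_one, inv_mul_cancel₀ (chi_ne_zero τ)]
    · have e1 := hcoc (τ⁻¹ * ν) τ
      have e2 := hcoc τ⁻¹ ν
      have e3 := hcoc τ⁻¹ τ
      rw [inv_mul_cancel, hβone] at e3
      rw [e1, e2, h1, h2, one_mul, add_zero]
      exact e3.symm
  -- powers of σ₁
  have hchipow : ∀ k : ℕ, chi p (σ₁ ^ k) = 1 := by
    intro k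
    induction k with
    | zero => rw [pow_zero, chi_one]
    | succ k ih => rw [pow_succ, chi_mul, ih, hσ₁, one_mul]
  have hβpow : ∀ k : ℕ, β (σ₁ ^ k) = (k : ZMod p) := by
    intro k
    induction k with
    | zero => rw [pow_zero, hβone, Nat.cast_zero]
    | succ k ih => rw [pow_succ, hcoc, ih, hσ₁, one_mul, hβ₁, Nat.cast_succ]
  -- the fixed field of `N`
  obtain ⟨L₀, hL₀⟩ : ∃ L₀ : IntermediateField ℚ Qb, L₀ = IntermediateField.fixedField N := ⟨_, rfl⟩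
  rw [← hL₀] at hfix
  have hL₀mem : ∀ (α : L₀) (ν : GQ), ν ∈ N → ν (α : Qb) = α := by
    intro α ν hν
    have h1 : (α : Qb) ∈ IntermediateField.fixedField N := hL₀ ▸ α.2
    exact (IntermediateField.mem_fixedField_iff N _).mp h1 ν hν
  -- the monoid homs `α ↦ σ₁^k α` on the fixed field
  let f : Fin p → (L₀ →* Qb) := fun k =>
    ((((σ₁ ^ (k : ℕ) : GQ) : Qb →ₐ[ℚ] Qb).comp L₀.val : L₀ →ₐ[ℚ] Qb) : L₀ →* Qb)
  have hf : ∀ (k : Fin p) (α : L₀), f k α = (σ₁ ^ (k : ℕ)) (α : Qb) := fun k α => rfl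
  have hfinj : Function.Injective f := by
    intro j k hjk
    have hmem : (σ₁ ^ (j : ℕ))⁻¹ * σ₁ ^ (k : ℕ) ∈ L₀.fixingSubgroup := by
      rw [IntermediateField.mem_fixingSubgroup_iff]
      intro x hx
      have h1 : f j ⟨x, hx⟩ = f k ⟨x, hx⟩ := by rw [hjk]
      rw [hf, hf] at h1
      show (σ₁ ^ (j : ℕ))⁻¹ ((σ₁ ^ (k : ℕ)) x) = x
      rw [← h1]
      exact (σ₁ ^ (j : ℕ)).symm_apply_apply x
    rw [hfix, hNmem] at hmem
    have h2 := hmem.2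
    rw [hcoc, hchipow, one_mul, hβinv _ (hchipow _), hβpow, hβpow] at h2
    have h3 : ((k : ℕ) : ZMod p) = ((j : ℕ) : ZMod p) := by
      rw [← sub_eq_zero, sub_eq_neg_add]
      exact h2
    rw [ZMod.natCast_eq_natCast_iff', Nat.mod_eq_of_lt k.2, Nat.mod_eq_of_lt j.2] at h3
    exact Fin.ext h3.symm
  have hli : LinearIndependent Qb (fun k : Fin p => (f k : L₀ → Qb)) :=
    (linearIndependent_monoidHom L₀ Qb).comp f hfinj
  rw [Fintype.linearIndependent_iff] at hli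
  obtain ⟨α, hα⟩ : ∃ α : L₀, ∑ k : Fin p, (ζ⁻¹) ^ (k : ℕ) * f k α ≠ 0 := by
    by_contra hcon
    push Not at hcon
    have h0 := hli (fun k => (ζ⁻¹) ^ (k : ℕ)) (by
      funext α
      simpa using hcon α) ⟨0, Nat.pos_of_ne_zero hp0⟩
    simp at h0
  -- the resolvent
  have hζp : ζ ^ p = 1 := hζ.pow_eq_one
  have hζ0 : ζ ≠ 0 := hζ.ne_zero hp0
  have hσ₁ζ : σ₁ ζ = ζ := (chi_eq_one_iff_fix σ₁ hζ).mp hσ₁
  obtain ⟨F, hF⟩ : ∃ F : ℕ → Qb, ∀ k, F k = (ζ⁻¹) ^ k * (σ₁ ^ k) (α : Qb) := ⟨_, fun _ => rfl⟩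
  have hθsum : ∑ k : Fin p, (ζ⁻¹) ^ (k : ℕ) * f k α = ∑ k ∈ Finset.range p, F k := by
    rw [← Fin.sum_univ_eq_sum_range F p]
    exact Finset.sum_congr rfl (fun k _ => by rw [hF, hf])
  rw [hθsum] at hα
  refine ⟨∑ k ∈ Finset.range p, F k, hα, ?_⟩
  have hFp : F p = F 0 := by
    rw [hF, hF, inv_pow, hζp, inv_one, one_mul, pow_zero, pow_zero, one_mul]
    have : σ₁ ^ p ∈ N := (hNmem _).mpr ⟨hchipow p, by rw [hβpow, ZMod.natCast_self]⟩
    rw [hL₀mem α _ this]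
    rfl
  have hσF : ∀ k, σ₁ (F k) = ζ * F (k + 1) := by
    intro k
    rw [hF, hF, map_mul, map_pow, map_inv₀, hσ₁ζ, pow_succ' σ₁ k, AlgEquiv.mul_apply, pow_succ,
      ← mul_assoc, mul_comm ζ, mul_assoc _ ζ⁻¹ ζ, inv_mul_cancel₀ hζ0, mul_one]
  have hσ₁θ : σ₁ (∑ k ∈ Finset.range p, F k) = ζ * ∑ k ∈ Finset.range p, F k := by
    rw [map_sum]
    have e1 : ∑ k ∈ Finset.range p, σ₁ (F k) = ζ * ∑ k ∈ Finset.range p, F (k + 1) := by
      rw [Finset.mul_sum]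
      exact Finset.sum_congr rfl (fun k _ => hσF k)
    have e2 : ∑ k ∈ Finset.range p, F (k + 1) = ∑ k ∈ Finset.range p, F k := by
      have a1 := Finset.sum_range_succ F p
      have a2 := Finset.sum_range_succ' F p
      rw [a1, hFp] at a2
      exact (add_right_cancel a2).symm
    rw [e1, e2]
  have hNθ : ∀ ν ∈ N, ν (∑ k ∈ Finset.range p, F k) = ∑ k ∈ Finset.range p, F k := by
    intro ν hν
    rw [map_sum]
    refine Finset.sum_congr rfl (fun k _ => ?_)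
    have hνζ : ν ζ = ζ := (chi_eq_one_iff_fix ν hζ).mp ((hNmem ν).mp hν).1
    rw [hF, map_mul, map_pow, map_inv₀, hνζ]
    congr 1
    have h1 := hL₀mem α _ (hNconj (σ₁ ^ k) ν hν)
    have h2 : ν ((σ₁ ^ k) (α : Qb)) = (σ₁ ^ k) (((σ₁ ^ k)⁻¹ * ν * σ₁ ^ k) (α : Qb)) := by
      rw [AlgEquiv.mul_apply, AlgEquiv.mul_apply]
      exact ((σ₁ ^ k).apply_symm_apply _).symm
    rw [h2, h1]
  have hpowθ : ∀ m : ℕ, (σ₁ ^ m) (∑ k ∈ Finset.range p, F k) =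
      ζ ^ m * ∑ k ∈ Finset.range p, F k := by
    intro m
    induction m with
    | zero => rw [pow_zero, pow_zero, one_mul]; rfl
    | succ m ih =>
      rw [pow_succ', AlgEquiv.mul_apply, ih, map_mul, map_pow, hσ₁ζ, hσ₁θ, pow_succ, mul_assoc]
  intro τ hτ
  have : NeZero p := ⟨hp0⟩
  have hν : (σ₁ ^ (β τ).val)⁻¹ * τ ∈ N := by
    refine (hNmem _).mpr ⟨?_, ?_⟩
    · rw [chi_mul, chi_inv, hchipow, inv_one, one_mul, hτ]
    · rw [hcoc, hτ, one_mul, hβinv _ (hchipow _), hβpow, ZMod.natCast_zmod_val, neg_add_cancel]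
  have h1 := hNθ _ hν
  have h2 : τ (∑ k ∈ Finset.range p, F k) =
      (σ₁ ^ (β τ).val) (((σ₁ ^ (β τ).val)⁻¹ * τ) (∑ k ∈ Finset.range p, F k)) := by
    rw [AlgEquiv.mul_apply]
    exact ((σ₁ ^ (β τ).val).apply_symm_apply _).symm
  rw [h2, h1, hpowθ]

/-- `ζ ^ a = ζ ^ b` when `a ≡ b` mod `p`. -/
theorem pow_eq_pow_of_natCast_eq {ζ : Qb} (hζ : ζ ^ p = 1) {a b : ℕ}
    (hab : (a : ZMod p) = (b : ZMod p)) : ζ ^ a = ζ ^ b := by
  have hmod : a ≡ b [MOD p] := (ZMod.natCast_eq_natCast_iff _ _ _).mp hab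
  rw [← Nat.mod_add_div a p, ← Nat.mod_add_div b p, pow_add, pow_add, pow_mul,
    pow_mul, hζ, one_pow, one_pow, mul_one, mul_one, hmod]

/-- An element fixed by every automorphism fixing `ζ` lies in `ℚ(ζ)`. -/
theorem mem_adjoin_of_fixed (ζ x : Qb) (hx : ∀ τ : GQ, τ ζ = ζ → τ x = x) : x ∈ ℚ⟮ζ⟯ := by
  have := isGalois_Qb
  rw [← InfiniteGalois.fixedField_fixingSubgroup ℚ⟮ζ⟯, IntermediateField.mem_fixedField_iff]
  intro τ hτ
  exact hx τ ((IntermediateField.mem_fixingSubgroup_iff _ _).mp hτ ζ (mem_adjoin_simple_self ℚ ζ))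

/-- An automorphism fixing `ζ` fixes `ℚ(ζ)` pointwise. -/
theorem fixed_of_mem_adjoin (ζ x : Qb) (hx : x ∈ ℚ⟮ζ⟯) (τ : GQ) (hτ : τ ζ = ζ) : τ x = x := by
  have hle : ℚ⟮ζ⟯ ≤ IntermediateField.fixedField (MulAction.stabilizer GQ ζ) := by
    rw [adjoin_simple_le_iff, IntermediateField.mem_fixedField_iff]
    intro g hg
    exact MulAction.mem_stabilizer_iff.mp hg
  exact (IntermediateField.mem_fixedField_iff _ _).mp (hle hx) τ (MulAction.mem_stabilizer_iff.mpr hτ)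

/-- From a resolvent to the Kummer generator (all clauses except the link with `V`). -/
theorem kummer_of_resolvent {ζ : Qb} (hζ : IsPrimitiveRoot ζ p) (β : GQ → ZMod p) (σ₁ : GQ)
    (hσ₁ : chi p σ₁ = 1) (hβ₁ : β σ₁ = 1)
    (hcoc : ∀ σ τ : GQ, β (σ * τ) = chi p τ * β σ + β τ)
    {θ₀ : Qb} (hθ₀ : θ₀ ≠ 0) (hE₀ : ∀ τ : GQ, chi p τ = 1 → τ θ₀ = ζ ^ (β τ).val * θ₀) :
    ∃ θ : Qb, θ ≠ 0 ∧ IsIntegral ℤ θ ∧ θ ^ p ∈ ℚ⟮ζ⟯ ∧ θ ∉ ℚ⟮ζ⟯ ∧
      (∀ σ : GQ, chi p σ = 1 → β σ = 0 → σ θ = θ) ∧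
      (∀ (σ : GQ) (n : ℕ), σ ζ = ζ ^ n →
        ∃ γ ∈ ℚ⟮ζ⟯, σ (θ ^ p) = γ ^ p * (θ ^ p) ^ (n ^ 2)) := by
  have := isGalois_Qb
  have hp0 : p ≠ 0 := (Fact.out : p.Prime).ne_zero
  have hp1 : 1 < p := (Fact.out : p.Prime).one_lt
  have : NeZero p := ⟨hp0⟩
  have : Fact (1 < p) := ⟨hp1⟩
  have hζp : ζ ^ p = 1 := hζ.pow_eq_one
  have hζ0 : ζ ≠ 0 := hζ.ne_zero hp0
  -- integrality by scaling
  have halg : IsAlgebraic ℤ θ₀ :=
    (IsFractionRing.isAlgebraic_iff ℤ ℚ Qb).mpr (Algebra.IsAlgebraic.isAlgebraic θ₀)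
  obtain ⟨m, hm0, hmint⟩ := halg.exists_integral_multiple
  obtain ⟨θ, hθdef⟩ : ∃ θ : Qb, θ = m • θ₀ := ⟨_, rfl⟩
  rw [← hθdef] at hmint
  have hθ : θ ≠ 0 := by
    rw [hθdef]
    exact smul_ne_zero hm0 hθ₀
  have hE : ∀ τ : GQ, chi p τ = 1 → τ θ = ζ ^ (β τ).val * θ := by
    intro τ hτ
    rw [hθdef, map_zsmul, hE₀ τ hτ, mul_smul_comm]
  have hβone : β 1 = 0 := by
    have := hcoc 1 1
    rw [mul_one, chi_one, one_mul] at this
    exact left_eq_add.mp this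
  refine ⟨θ, hθ, hmint, ?_, ?_, ?_, ?_⟩
  · -- θ^p ∈ ℚ(ζ)
    apply mem_adjoin_of_fixed
    intro τ hτ
    rw [map_pow, hE τ ((chi_eq_one_iff_fix τ hζ).mpr hτ), mul_pow, ← pow_mul, mul_comm _ p,
      pow_mul, hζp, one_pow, one_mul]
  · -- θ ∉ ℚ(ζ)
    intro hmem
    have h1 := fixed_of_mem_adjoin ζ θ hmem σ₁ ((chi_eq_one_iff_fix σ₁ hζ).mp hσ₁)
    rw [hE σ₁ hσ₁, hβ₁, ZMod.val_one, pow_one] at h1
    have h2 : ζ = 1 := by
      have h3 : ζ * θ = 1 * θ := by rw [h1, one_mul]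
      exact mul_right_cancel₀ hθ h3
    exact hζ.ne_one hp1 h2
  · intro σ hσ hβσ
    rw [hE σ hσ, hβσ, ZMod.val_zero, pow_zero, one_mul]
  · intro σ n hσn
    have hnchi : (n : ZMod p) = chi p σ := by
      have h1 : ζ ^ n = ζ ^ cycloExp p σ := by rw [← hσn, cycloExp_spec σ hζp]
      have h2 : n % p = cycloExp p σ % p := by
        apply hζ.pow_inj (Nat.mod_lt _ (Nat.pos_of_ne_zero hp0)) (Nat.mod_lt _ (Nat.pos_of_ne_zero hp0))
        rw [pow_eq_pow_of_natCast_eq hζp (ZMod.natCast_mod n p),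
          pow_eq_pow_of_natCast_eq hζp (ZMod.natCast_mod (cycloExp p σ) p), h1]
      exact (ZMod.natCast_eq_natCast_iff' _ _ _).mpr h2
    have hσθ : σ θ ≠ 0 := by
      rw [Ne, map_eq_zero]
      exact hθ
    have hpow0 : θ ^ (n ^ 2) ≠ 0 := pow_ne_zero _ hθ
    refine ⟨σ θ / θ ^ (n ^ 2), ?_, ?_⟩
    · apply mem_adjoin_of_fixed
      intro τ hτ
      have hτχ : chi p τ = 1 := (chi_eq_one_iff_fix τ hζ).mpr hτ
      have hconjχ : chi p (σ⁻¹ * τ * σ) = 1 := by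
        rw [chi_mul, chi_mul, chi_inv, hτχ, mul_one, inv_mul_cancel₀ (chi_ne_zero σ)]
      have hconjβ : β (σ⁻¹ * τ * σ) = chi p σ * β τ := by
        have e1 := hcoc (σ⁻¹ * τ) σ
        have e2 := hcoc σ⁻¹ τ
        have e3 := hcoc σ⁻¹ σ
        rw [inv_mul_cancel, hβone] at e3
        rw [e1, e2, hτχ, one_mul, mul_add, add_right_comm, ← e3, zero_add]
      have h1 : τ (σ θ) = σ ((σ⁻¹ * τ * σ) θ) := by
        rw [AlgEquiv.mul_apply, AlgEquiv.mul_apply]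
        exact (σ.apply_symm_apply _).symm
      rw [map_div₀, map_pow, h1, hE _ hconjχ, hE τ hτχ, map_mul, map_pow, hσn, mul_pow, ← pow_mul,
        ← pow_mul]
      have h2 : ζ ^ (n * (β (σ⁻¹ * τ * σ)).val) = ζ ^ ((β τ).val * n ^ 2) := by
        apply pow_eq_pow_of_natCast_eq hζp
        rw [Nat.cast_mul, Nat.cast_mul, Nat.cast_pow, ZMod.natCast_zmod_val, ZMod.natCast_zmod_val,
          hconjβ, hnchi]
        ring
      rw [h2]
      have h3 : ζ ^ ((β τ).val * n ^ 2) ≠ 0 := pow_ne_zero _ hζ0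
      field_simp
    · rw [map_pow, div_pow, ← pow_mul, ← pow_mul, mul_comm p (n ^ 2)]
      have h4 : θ ^ (n ^ 2 * p) ≠ 0 := pow_ne_zero _ hθ
      field_simp

variable {V : Type} [AddCommGroup V] [Module (ZMod p) V] [DistribMulAction GQ V]
  [SMulCommClass GQ (ZMod p) V]

/-- **A2** (Kummer generator), skeleton statement verbatim. -/
theorem exists_kummer_generator (hp : 3 ≤ p) (C : Submodule (ZMod p) V)
    (h : IsAdmissibleExtensionCts p V C)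
    (hnt : ∃ σ : GQ, cycloExp p σ = 1 ∧ ∃ v : V, σ • v ≠ v) :
    ∃ (ζ θ : Qb), IsPrimitiveRoot ζ p ∧ θ ≠ 0 ∧ IsIntegral ℤ θ ∧ θ ^ p ∈ ℚ⟮ζ⟯ ∧ θ ∉ ℚ⟮ζ⟯ ∧
      (∀ σ : GQ, (∀ v : V, σ • v = v) → σ θ = θ) ∧
      (∀ (σ : GQ) (n : ℕ), σ ζ = ζ ^ n →
        ∃ γ ∈ ℚ⟮ζ⟯, σ (θ ^ p) = γ ^ p * (θ ^ p) ^ (n ^ 2)) := by
  have hp0 : p ≠ 0 := (Fact.out : p.Prime).ne_zero
  have hadm : IsAdmissibleExtension p V C := h.toIsAdmissibleExtension
  obtain ⟨σ₁, hσ₁c, x₀, hx₀⟩ := hnt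
  have hσ₁ : chi p σ₁ = 1 := (chi_eq_one_iff σ₁).mpr hσ₁c
  obtain ⟨c₀, hc₀def⟩ : ∃ c₀ : V, c₀ = σ₁ • x₀ - x₀ := ⟨_, rfl⟩
  have hc₀C : c₀ ∈ C := by
    have := smul_sub_chi_smul_mem hadm σ₁ x₀
    rw [hσ₁, one_smul] at this
    rw [hc₀def]
    exact this
  have hc₀ : c₀ ≠ 0 := by
    rw [hc₀def]
    exact sub_ne_zero.mpr hx₀
  have hinj : ∀ a b : ZMod p, a • c₀ = b • c₀ → a = b := by
    intro a b hab
    have h1 : (a - b) • c₀ = 0 := by rw [sub_smul, hab, sub_self]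
    exact sub_eq_zero.mp ((smul_eq_zero.mp h1).resolve_right hc₀)
  -- `C = F_p c₀`
  have hspan : ∀ c ∈ C, ∃ a : ZMod p, a • c₀ = c := by
    have hfin : Finite C := Nat.finite_of_card_ne_zero (by rw [hadm.card_sub]; exact hp0)
    have hbij : Function.Bijective (fun a : ZMod p => (⟨a • c₀, C.smul_mem a hc₀C⟩ : C)) := by
      apply Function.Injective.bijective_of_nat_card_le
      · intro a b hab
        exact hinj a b (congrArg Subtype.val hab)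
      · rw [hadm.card_sub, Nat.card_zmod]
    intro c hc
    obtain ⟨a, ha⟩ := hbij.2 ⟨c, hc⟩
    exact ⟨a, congrArg Subtype.val ha⟩
  -- the cocycle
  choose β hβ using fun σ : GQ => hspan _ (smul_sub_chi_smul_mem hadm σ x₀)
  have hβ' : ∀ σ : GQ, σ • x₀ = chi p σ • x₀ + β σ • c₀ := by
    intro σ
    rw [hβ σ]
    abel
  have hβ₁ : β σ₁ = 1 := by
    apply hinj
    rw [hβ σ₁, hσ₁, one_smul, one_smul, hc₀def]
  have hcoc : ∀ σ τ : GQ, β (σ * τ) = chi p τ * β σ + β τ := by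
    intro σ τ
    apply hinj
    have h1 : (σ * τ) • x₀ = chi p (σ * τ) • x₀ + (chi p τ * β σ + β τ) • c₀ := by
      rw [mul_smul, hβ' τ, smul_add, smul_comm σ (chi p τ) x₀, smul_comm σ (β τ) c₀,
        hadm.fixed_sub σ c₀ hc₀C, hβ' σ, chi_mul]
      module
    have h2 := hβ' (σ * τ)
    rw [h1] at h2
    exact (add_left_cancel h2).symm
  -- the kernel of the action is contained in `{χ = 1, β = 0}`
  have hker : ∀ σ : GQ, (∀ v : V, σ • v = v) → chi p σ = 1 ∧ β σ = 0 := by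
    intro σ hσ
    have h1 := hβ σ
    rw [hσ x₀] at h1
    have hχ : chi p σ = 1 := by
      by_contra hne
      have hne' : (1 : ZMod p) - chi p σ ≠ 0 := fun h0 => hne (sub_eq_zero.mp h0).symm
      have h2 : ((1 : ZMod p) - chi p σ) • x₀ = β σ • c₀ := by rw [sub_smul, one_smul, h1]
      have h3 : x₀ = ((1 : ZMod p) - chi p σ)⁻¹ • β σ • c₀ := by
        rw [← h2, smul_smul, inv_mul_cancel₀ hne', one_smul]
      have h4 : x₀ ∈ C := by
        rw [h3]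
        exact C.smul_mem _ (C.smul_mem _ hc₀C)
      exact hx₀ (hadm.fixed_sub σ₁ x₀ h4)
    refine ⟨hχ, ?_⟩
    rw [hχ, one_smul, sub_self] at h1
    exact (smul_eq_zero.mp h1).resolve_right hc₀
  have hopen : {σ : GQ | chi p σ = 1 ∧ β σ = 0} ∈ nhds (1 : GQ) := by
    refine Filter.mem_of_superset (h.open_kernel.mem_nhds ?_) (fun σ hσ => hker σ hσ)
    intro v
    exact one_smul _ v
  obtain ⟨ζ, hζ⟩ := exists_primitiveRoot p
  obtain ⟨θ₀, hθ₀, hE₀⟩ := exists_resolvent hζ β σ₁ hσ₁ hβ₁ hcoc hopen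
  obtain ⟨θ, hθ, hint, hpow, hnot, hN, heig⟩ := kummer_of_resolvent hζ β σ₁ hσ₁ hβ₁ hcoc hθ₀ hE₀
  exact ⟨ζ, θ, hζ, hθ, hint, hpow, hnot, fun σ hσ => hN σ (hker σ hσ).1 (hker σ hσ).2, heig⟩

end Fermat.Agent.S14.H52
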